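/-
S31 / S30 glue leaf LUC, polynomial form (helper35): the Lucas polynomial
`lucasPoly d i = V_i(X, d) ∈ ℤ[X]`, with `aeval t (lucasPoly d i) = lucasV t d i` in any ring,
and the group-action form used by the trace comparison: if `h` acts on an additive group `B`
with `h² - T h + ℓ = 0` for an additive endomorphism `T` commuting with `h`, then
`h ^ m • x + ℓ ^ m • (h ^ m)⁻¹ • x = aeval T (lucasPoly ℓ m) x`.
Mathlib + `Fermat.Agent.S31.H35.Lucas` only.
-/
import Mathlib
import Fermat.Agent.S31.H35.Lucas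

set_option autoImplicit false

open Polynomial

namespace Fermat.Agent.S31.H35

/-- The Lucas polynomial `V_i(X, d) ∈ ℤ[X]`: `V_0 = 2`, `V_1 = X`,
`V_(i+2) = X V_(i+1) - d V_i`. -/
noncomputable def lucasPoly (d : ℤ) (i : ℕ) : ℤ[X] := lucasV (X : ℤ[X]) (C d) i

theorem lucasPoly_zero (d : ℤ) : lucasPoly d 0 = 2 := rfl

theorem lucasPoly_one (d : ℤ) : lucasPoly d 1 = X := rfl

theorem lucasPoly_add_two (d : ℤ) (n : ℕ) :
    lucasPoly d (n + 2) = X * lucasPoly d (n + 1) - C d * lucasPoly d n := rfl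

/-- Evaluating the Lucas polynomial in any ring gives the Lucas sequence. -/
theorem aeval_lucasPoly {R : Type*} [Ring R] (t : R) (d : ℤ) (i : ℕ) :
    aeval t (lucasPoly d i) = lucasV t (d : R) i := by
  have h := map_lucasV (X : ℤ[X]) (C d) ((aeval t : ℤ[X] →ₐ[ℤ] R) : ℤ[X] →+* R) i
  have e1 : ((aeval t : ℤ[X] →ₐ[ℤ] R) : ℤ[X] →+* R) X = t := by simp
  have e2 : ((aeval t : ℤ[X] →ₐ[ℤ] R) : ℤ[X] →+* R) (C d) = (d : R) := by simp
  rw [e1, e2] at h
  exact h

/-- Evaluation of the Lucas polynomial in a commutative ring. -/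
theorem eval₂_lucasPoly {R : Type*} [CommRing R] (t : R) (d : ℤ) (i : ℕ) :
    (lucasPoly d i).eval₂ (Int.castRingHom R) t = lucasV t (d : R) i := by
  have h := aeval_lucasPoly t d i
  have e : algebraMap ℤ R = Int.castRingHom R := RingHom.ext fun z => eq_intCast _ z
  rwa [aeval_def, e] at h

/-- The Lucas polynomial is compatible with ring homomorphisms. -/
theorem map_aeval_lucasPoly {R S : Type*} [Ring R] [Ring S] (f : R →+* S) (t : R) (d : ℤ)
    (i : ℕ) : f (aeval t (lucasPoly d i)) = aeval (f t) (lucasPoly d i) := by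
  rw [aeval_lucasPoly, aeval_lucasPoly, map_lucasV, map_intCast]

/-- The trace of the `i`-th power of an endomorphism with characteristic polynomial
`X^2 - t X + d` (`d` an integer) is the Lucas polynomial evaluated at `t`. -/
theorem trace_pow_eq_aeval_lucasPoly {T : Type*} [CommRing T] {V : Type*} [AddCommGroup V]
    [Module T V] [Module.Free T V] [Module.Finite T V] (A : Module.End T V) (t : T) (d : ℤ)
    (hA : LinearMap.charpoly A = X ^ 2 - C t * X + C (d : T)) (i : ℕ) :
    LinearMap.trace T V (A ^ i) = aeval t (lucasPoly d i) := by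
  rw [aeval_lucasPoly, trace_pow_eq_lucasV A t (d : T) hA i]

section Action

variable {G : Type*} [Group G] {B : Type*} [AddCommGroup B] [DistribMulAction G B]

/-- **LUC, action form.**  If `h` acts on `B` with `h • h • x - T (h • x) + ℓ • x = 0` for an
additive endomorphism `T` commuting with `h`, then
`h ^ m • x + ℓ ^ m • (h ^ m)⁻¹ • x = V_m(T, ℓ) x`. -/
theorem pow_smul_add_eq_aeval_lucasPoly (h : G) (T : AddMonoid.End B) (ℓ : ℤ)
    (hrel : ∀ x : B, h • h • x - T (h • x) + ℓ • x = 0) (m : ℕ) (x : B) :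
    h ^ m • x + ℓ ^ m • (h ^ m)⁻¹ • x = aeval T (lucasPoly ℓ m) x := by
  set H : AddMonoid.End B := DistribMulAction.toAddMonoidEnd G B h with hH
  set H' : AddMonoid.End B := DistribMulAction.toAddMonoidEnd G B h⁻¹ with hH'
  have hHH' : H * H' = 1 := by
    rw [hH, hH', ← map_mul, mul_inv_cancel, map_one]
  have hH'H : H' * H = 1 := by
    rw [hH, hH', ← map_mul, inv_mul_cancel, map_one]
  have hd : ∀ y : AddMonoid.End B, Commute ((ℓ : ℤ) : AddMonoid.End B) y := fun y =>
    Int.cast_commute ℓ y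
  have hrel' : H * H - T * H + ((ℓ : ℤ) : AddMonoid.End B) = 0 := by
    ext y
    have := hrel y
    show h • h • y - T (h • y) + ((ℓ : ℤ) : AddMonoid.End B) y = 0
    have e : ((ℓ : ℤ) : AddMonoid.End B) y = ℓ • y := rfl
    rw [e]; exact this
  have key := pow_add_pow_eq_lucasV H H' T ((ℓ : ℤ) : AddMonoid.End B) hHH' hH'H hd hrel' m
  rw [aeval_lucasPoly, ← key]
  have e1 : H ^ m = DistribMulAction.toAddMonoidEnd G B (h ^ m) := by
    rw [hH, map_pow]
  have e2 : H' ^ m = DistribMulAction.toAddMonoidEnd G B ((h ^ m)⁻¹) := by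
    rw [hH', ← map_pow, inv_pow]
  have e3 : ((ℓ : ℤ) : AddMonoid.End B) ^ m = ((ℓ ^ m : ℤ) : AddMonoid.End B) := by
    rw [Int.cast_pow]
  rw [e1, e2, e3]
  rfl

/-- **LUC, congruence form** (the shape consumed by the trace limit): if `g` acts on `B` as
`h ^ m`, `e` acts on `B` as `ℓ ^ m`, and `h` satisfies `h² - T h + ℓ = 0` on `B`, then
`g • x + e • g⁻¹ • x = V_m(T, ℓ) x`. -/
theorem smul_add_eq_aeval_lucasPoly (g h : G) (T : AddMonoid.End B) (ℓ e : ℤ)
    (hrel : ∀ x : B, h • h • x - T (h • x) + ℓ • x = 0) (m : ℕ)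
    (hg : ∀ x : B, g • x = h ^ m • x) (he : ∀ x : B, e • x = ℓ ^ m • x) (x : B) :
    g • x + e • g⁻¹ • x = aeval T (lucasPoly ℓ m) x := by
  have hginv : g⁻¹ • x = (h ^ m)⁻¹ • x := by
    have h1 := hg (g⁻¹ • x)
    rw [smul_inv_smul] at h1
    conv_rhs => rw [h1]
    rw [inv_smul_smul]
  rw [hg x, he, hginv]
  exact pow_smul_add_eq_aeval_lucasPoly h T ℓ hrel m x

end Action

end Fermat.Agent.S31.H35
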