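/-
S31 / glue leaf LUC (helper35): the Lucas sequence `V_i(t, d)` (`V_0 = 2`, `V_1 = t`,
`V_(i+2) = t V_(i+1) - d V_i`) and its two incarnations:

* `trace_pow_eq_lucasV` : an endomorphism `A` of a finite free module with characteristic
  polynomial `X^2 - t X + d` has `trace (A ^ i) = V_i(t, d)`;
* `pow_add_pow_eq_lucasV` : in any ring, `h` invertible with inverse `h'`, `d` central,
  `h * h - t * h + d = 0`, `t` commuting with `h`  ⟹  `h ^ i + d ^ i * h' ^ i = V_i(t, d)`.

Also: compatibility with ring homomorphisms (`map_lucasV`) and with intertwining additive maps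
(`lucasV_semiconj`).  Mathlib only.
-/
import Mathlib

set_option autoImplicit false

open Polynomial

namespace Fermat.Agent.S31.H35

/-- The Lucas sequence `V_i(t, d)` in an arbitrary ring. -/
def lucasV {R : Type*} [Ring R] (t d : R) : ℕ → R
  | 0 => 2
  | 1 => t
  | (n + 2) => t * lucasV t d (n + 1) - d * lucasV t d n

section Basic

variable {R : Type*} [Ring R] (t d : R)

@[simp] theorem lucasV_zero : lucasV t d 0 = 2 := rfl

@[simp] theorem lucasV_one : lucasV t d 1 = t := rfl

theorem lucasV_add_two (n : ℕ) :
    lucasV t d (n + 2) = t * lucasV t d (n + 1) - d * lucasV t d n := rfl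

/-- A sequence with the same initial values and the same recursion is the Lucas sequence. -/
theorem eq_lucasV_of_rec (s : ℕ → R) (h0 : s 0 = 2) (h1 : s 1 = t)
    (hrec : ∀ n, s (n + 2) = t * s (n + 1) - d * s n) (n : ℕ) : s n = lucasV t d n := by
  induction n using Nat.strong_induction_on with
  | _ n ih =>
    match n with
    | 0 => exact h0
    | 1 => exact h1
    | (m + 2) =>
      rw [hrec m, lucasV_add_two, ih (m + 1) (by omega), ih m (by omega)]

theorem map_lucasV {S : Type*} [Ring S] (f : R →+* S) (n : ℕ) :
    f (lucasV t d n) = lucasV (f t) (f d) n := by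
  refine eq_lucasV_of_rec (f t) (f d) (fun n => f (lucasV t d n)) ?_ ?_ ?_ n
  · show f (lucasV t d 0) = 2
    rw [lucasV_zero, map_ofNat]
  · simp
  · intro m
    rw [lucasV_add_two, map_sub, map_mul, map_mul]

end Basic

/-! ### (b) powers of an invertible element satisfying a quadratic relation -/

section Ring

variable {E : Type*} [Ring E]

/-- **LUC (b).**  If `h` is invertible with inverse `h'`, `d` is central, `t` commutes with `h`
and `h * h - t * h + d = 0`, then `h ^ i + d ^ i * h' ^ i = V_i(t, d)`. -/
theorem pow_add_pow_eq_lucasV (h h' t d : E) (hh' : h * h' = 1) (h'h : h' * h = 1)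
    (hd : ∀ x : E, Commute d x) (hrel : h * h - t * h + d = 0) (i : ℕ) :
    h ^ i + d ^ i * h' ^ i = lucasV t d i := by
  have ht : h + d * h' = t := by
    have h1 : (h * h - t * h + d) * h' = 0 := by rw [hrel, zero_mul]
    have h2 : (h * h - t * h + d) * h' = h - t + d * h' := by
      rw [add_mul, sub_mul, mul_assoc, mul_assoc, hh', mul_one, mul_one]
    rw [h2] at h1
    have : h + d * h' - t = 0 := by rw [← h1]; abel
    exact sub_eq_zero.mp this
  refine eq_lucasV_of_rec t d (fun i => h ^ i + d ^ i * h' ^ i) ?_ ?_ ?_ i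
  · simp only [pow_zero, mul_one]; norm_num
  · simp only [pow_one]; exact ht
  · intro n
    show h ^ (n + 2) + d ^ (n + 2) * h' ^ (n + 2) =
      t * (h ^ (n + 1) + d ^ (n + 1) * h' ^ (n + 1)) - d * (h ^ n + d ^ n * h' ^ n)
    have hdh : ∀ (k : ℕ) (x : E), x * d ^ k = d ^ k * x := fun k x => ((hd x).pow_left k).eq.symm
    have e1 : h * h' ^ (n + 1) = h' ^ n := by
      rw [pow_succ', ← mul_assoc, hh', one_mul]
    have e2 : h' * h ^ (n + 1) = h ^ n := by
      rw [pow_succ', ← mul_assoc, h'h, one_mul]
    rw [← ht]
    have expand : (h + d * h') * (h ^ (n + 1) + d ^ (n + 1) * h' ^ (n + 1)) =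
        h ^ (n + 2) + d ^ (n + 1) * h' ^ n + d * h ^ n + d ^ (n + 2) * h' ^ (n + 2) := by
      rw [add_mul, mul_add, mul_add]
      have a1 : h * h ^ (n + 1) = h ^ (n + 2) := by rw [← pow_succ']
      have a2 : h * (d ^ (n + 1) * h' ^ (n + 1)) = d ^ (n + 1) * h' ^ n := by
        rw [← mul_assoc, hdh, mul_assoc, e1]
      have a3 : d * h' * h ^ (n + 1) = d * h ^ n := by rw [mul_assoc, e2]
      have a4 : d * h' * (d ^ (n + 1) * h' ^ (n + 1)) = d ^ (n + 2) * h' ^ (n + 2) := by
        rw [mul_assoc, ← mul_assoc h', hdh, mul_assoc, ← pow_succ', ← mul_assoc, ← pow_succ']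
      rw [a1, a2, a3, a4]; abel
    rw [expand, mul_add, ← mul_assoc, ← pow_succ']
    abel

end Ring

/-! ### (a) traces of powers -/

section Trace

variable {T : Type*} [CommRing T] {V : Type*} [AddCommGroup V] [Module T V]
  [Module.Free T V] [Module.Finite T V]

/-- **LUC (a).**  An endomorphism of a finite free module with characteristic polynomial
`X^2 - t X + d` has `trace (A ^ i) = V_i(t, d)`. -/
theorem trace_pow_eq_lucasV (A : Module.End T V) (t d : T)
    (hA : LinearMap.charpoly A = X ^ 2 - C t * X + C d) (i : ℕ) :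
    LinearMap.trace T V (A ^ i) = lucasV t d i := by
  rcases subsingleton_or_nontrivial T with hT | hT
  · exact Subsingleton.elim _ _
  have hdeg : (X ^ 2 - C t * X + C d : T[X]).natDegree = 2 := by
    compute_degree!
  have hrank : Module.finrank T V = 2 := by
    rw [← LinearMap.charpoly_natDegree A, hA, hdeg]
  have htr : LinearMap.trace T V A = t := by
    classical
    rw [LinearMap.trace_eq_matrix_trace T (Module.Free.chooseBasis T V),
      Matrix.trace_eq_neg_charpoly_nextCoeff]
    have hA' : (LinearMap.toMatrix (Module.Free.chooseBasis T V) (Module.Free.chooseBasis T V)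
        A).charpoly = X ^ 2 - C t * X + C d := hA
    rw [hA', Polynomial.nextCoeff, if_neg (by rw [hdeg]; norm_num), hdeg]
    simp [Polynomial.coeff_C]
  have hCH : A * A = t • A - d • (1 : Module.End T V) := by
    have h := LinearMap.aeval_self_charpoly A
    rw [hA] at h
    simp only [map_add, map_sub, map_mul, map_pow, aeval_X, aeval_C,
      Module.algebraMap_end_eq_smul_id] at h
    have h2 : A ^ 2 = t • A - d • (1 : Module.End T V) := by
      have : A ^ 2 - t • A + d • (1 : Module.End T V) = 0 := by
        rw [← h]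
        have e1 : t • (LinearMap.id : Module.End T V) * A = t • A := by
          rw [smul_mul_assoc]; rfl
        rw [e1]; rfl
      rw [← sub_eq_zero, ← this]; abel
    rw [← sq, h2]
  refine eq_lucasV_of_rec t d (fun i => LinearMap.trace T V (A ^ i)) ?_ ?_ ?_ i
  · simp only [pow_zero, LinearMap.trace_one, hrank]; norm_num
  · simp only [pow_one]; exact htr
  · intro n
    show LinearMap.trace T V (A ^ (n + 2)) =
      t * LinearMap.trace T V (A ^ (n + 1)) - d * LinearMap.trace T V (A ^ n)
    have : A ^ (n + 2) = t • A ^ (n + 1) - d • A ^ n := by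
      rw [pow_add, pow_two, hCH, mul_sub, mul_smul_comm, mul_smul_comm, mul_one, ← pow_succ]
    rw [this, map_sub, map_smul, map_smul, smul_eq_mul, smul_eq_mul]

end Trace

/-! ### Intertwining -/

section Semiconj

variable {L X : Type*} [AddCommGroup L] [AddCommGroup X]

/-- If an additive map intertwines `a` and `b`, it intertwines `V_i(a, d)` and `V_i(b, d)` for
every integer `d`. -/
theorem lucasV_semiconj (φ : L →+ X) (a : AddMonoid.End L) (b : AddMonoid.End X) (d : ℤ)
    (hab : ∀ x, φ (a x) = b (φ x)) (i : ℕ) (x : L) :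
    φ (lucasV a (d : AddMonoid.End L) i x) = lucasV b (d : AddMonoid.End X) i (φ x) := by
  induction i using Nat.strong_induction_on generalizing x with
  | _ n ih =>
    match n with
    | 0 =>
      simp only [lucasV_zero]
      show φ ((2 : AddMonoid.End L) x) = (2 : AddMonoid.End X) (φ x)
      have h2L : (2 : AddMonoid.End L) x = x + x := by
        have : (2 : AddMonoid.End L) = 1 + 1 := by norm_num
        rw [this]; rfl
      have h2X : (2 : AddMonoid.End X) (φ x) = φ x + φ x := by
        have : (2 : AddMonoid.End X) = 1 + 1 := by norm_num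
        rw [this]; rfl
      rw [h2L, h2X, map_add]
    | 1 => simp only [lucasV_one]; exact hab x
    | (m + 2) =>
      rw [lucasV_add_two, lucasV_add_two]
      show φ (a (lucasV a (d : AddMonoid.End L) (m + 1) x) -
          (d : AddMonoid.End L) (lucasV a (d : AddMonoid.End L) m x)) =
        b (lucasV b (d : AddMonoid.End X) (m + 1) (φ x)) -
          (d : AddMonoid.End X) (lucasV b (d : AddMonoid.End X) m (φ x))
      rw [map_sub, hab, ih (m + 1) (by omega), ← ih m (by omega)]
      congr 1
      show φ (d • lucasV a (d : AddMonoid.End L) m x) = d • φ (lucasV a (d : AddMonoid.End L) m x)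
      rw [map_zsmul]

end Semiconj

end Fermat.Agent.S31.H35
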