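/-
S31 / glue leaf T-KER (helper35): a residually absolutely irreducible representation over a local
ring is faithful on its trace function.

`eq_one_of_forall_trace_mul_eq` : if `ρ : GaloisRepAdic T` has absolutely irreducible residual
representation and `trace (ρ (τ * g)) = trace (ρ g)` for all `g`, then `ρ τ = 1`.

Proof: Burnside over the algebraic closure of the residue field (Jacobson density + Schur), descent
of the spanning property to the residue field (dimension count), Nakayama, and nondegeneracy of the
trace form of a finite free module.
-/
import Mathlib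
import Fermat.Prelude.Def_GaloisRep_Adic

set_option autoImplicit false

open scoped TensorProduct

namespace Fermat.Agent.S31.H35

/-! ### Burnside's theorem over an algebraically closed field -/

section Burnside

variable {K : Type*} [Field K] [IsAlgClosed K] {U : Type*} [AddCommGroup U] [Module K U]
  [FiniteDimensional K U] [Nontrivial U]

/-- **Burnside**: a multiplicatively closed set of endomorphisms of a finite-dimensional vector
space over an algebraically closed field without proper nonzero stable subspace spans all
endomorphisms. -/
theorem span_eq_top_of_irreducible (S : Submonoid (Module.End K U))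
    (hirr : ∀ W : Submodule K U, (∀ s ∈ S, ∀ x ∈ W, s x ∈ W) → W = ⊥ ∨ W = ⊤) :
    Submodule.span K (S : Set (Module.End K U)) = ⊤ := by
  classical
  set A : Subalgebra K (Module.End K U) := Algebra.adjoin K (S : Set (Module.End K U)) with hA
  have hAspan : Subalgebra.toSubmodule A = Submodule.span K (S : Set (Module.End K U)) := by
    rw [hA, Algebra.adjoin_eq_span, Submonoid.closure_eq]
  have hsmul : ∀ (a : A) (u : U), a • u = (a : Module.End K U) u := fun _ _ => rfl
  have hsimple : IsSimpleModule A U := by
    rw [isSimpleModule_iff]
    refine ⟨fun W' => ?_⟩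
    rcases hirr (W'.restrictScalars K) (fun s hs x hx => by
      have hsA : s ∈ A := Algebra.subset_adjoin hs
      have := W'.smul_mem (⟨s, hsA⟩ : A) hx
      rwa [hsmul] at this) with h | h
    · left
      exact Submodule.restrictScalars_injective K A U (by rw [h]; rfl)
    · right
      exact Submodule.restrictScalars_injective K A U (by rw [h]; rfl)
  have hschur := IsSimpleModule.algebraMap_end_bijective_of_isAlgClosed (A := A) (V := U) K
  rw [← hAspan, eq_top_iff]
  intro φ _
  let f : Module.End (Module.End A U) U :=
    { toFun := fun u => φ u
      map_add' := fun x y => map_add φ x y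
      map_smul' := fun e u => by
        obtain ⟨c, rfl⟩ := hschur.2 e
        simp only [Module.End.smul_def, Module.algebraMap_end_apply, RingHom.id_apply, map_smul] }
  let b := Module.finBasis K U
  obtain ⟨r, hr⟩ := jacobson_density (R := A) (M := U) f (Finset.univ.image b)
  have hφ : φ = (r : Module.End K U) := by
    refine b.ext fun i => ?_
    have := hr (b i) (Finset.mem_image_of_mem _ (Finset.mem_univ i))
    rw [hsmul] at this
    exact this
  rw [hφ]
  exact r.2

end Burnside

/-! ### Descent of the spanning property along a field extension -/

section Descent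

variable {k : Type*} [Field k] (K : Type*) [Field K] [Algebra k K]
  {U : Type*} [AddCommGroup U] [Module k U] [FiniteDimensional k U]

/-- If the base changes of a set of endomorphisms span all endomorphisms of the base-changed
space, then the set spans all endomorphisms. -/
theorem span_eq_top_of_span_baseChange_eq_top (S : Set (Module.End k U))
    (h : Submodule.span K ((fun s : Module.End k U => s.baseChange K) '' S) = ⊤) :
    Submodule.span k S = ⊤ := by
  classical
  set B : Submodule k (Module.End k U) := Submodule.span k S with hB
  let b := Module.finBasis k B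
  -- the `K`-span of the base changes of a basis of `B`
  set C : Submodule K (Module.End K (K ⊗[k] U)) :=
    Submodule.span K (Set.range fun i => ((b i : Module.End k U)).baseChange K) with hC
  have hSC : ∀ s ∈ B, s.baseChange K ∈ C := by
    intro s hs
    have hrepr := b.sum_repr ⟨s, hs⟩
    have hs' : s = ∑ i, (b.repr ⟨s, hs⟩ i) • (b i : Module.End k U) := by
      have h1 := congrArg (Subtype.val) hrepr
      rw [Submodule.coe_sum] at h1
      simp only [Submodule.coe_smul] at h1
      exact h1.symm
    rw [hs']
    have hbc : (∑ i, (b.repr ⟨s, hs⟩ i) • (b i : Module.End k U)).baseChange K =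
        ∑ i, (algebraMap k K (b.repr ⟨s, hs⟩ i)) • ((b i : Module.End k U)).baseChange K := by
      have := map_sum (LinearMap.baseChangeHom k K U U)
        (fun i => (b.repr ⟨s, hs⟩ i) • (b i : Module.End k U)) Finset.univ
      simp only [LinearMap.baseChangeHom_apply] at this
      rw [this]
      refine Finset.sum_congr rfl fun i _ => ?_
      rw [LinearMap.baseChange_smul, algebraMap_smul]
    rw [hbc]
    exact Submodule.sum_mem _ fun i _ => Submodule.smul_mem _ _
      (Submodule.subset_span (Set.mem_range_self i))
  have hCtop : C = ⊤ := by
    rw [eq_top_iff, ← h, Submodule.span_le]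
    rintro _ ⟨s, hs, rfl⟩
    exact hSC s (Submodule.subset_span hs)
  have h1 : Module.finrank K C ≤ Module.finrank k B := by
    have := finrank_range_le_card (R := K) (fun i => ((b i : Module.End k U)).baseChange K)
    rw [Fintype.card_fin] at this
    exact this
  have h2 : Module.finrank K C = Module.finrank k U * Module.finrank k U := by
    rw [hCtop, finrank_top, Module.finrank_linearMap, Module.finrank_baseChange]
  have h3 : Module.finrank k (Module.End k U) = Module.finrank k U * Module.finrank k U :=
    Module.finrank_linearMap k k U U
  exact Submodule.eq_top_of_finrank_eq (le_antisymm (Submodule.finrank_le B) (by omega))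

end Descent

/-! ### Nakayama: lifting the spanning property from the residue field -/

section Nakayama

variable {T : Type*} [CommRing T] [IsLocalRing T] {V : Type*} [AddCommGroup V] [Module T V]
  [Module.Free T V] [Module.Finite T V]

/-- An endomorphism of a finite free module whose reduction modulo the maximal ideal vanishes lies
in `𝔪 • End`. -/
theorem mem_smul_top_of_baseChange_eq_zero (Z : Module.End T V)
    (hZ : Z.baseChange (IsLocalRing.ResidueField T) = 0) :
    Z ∈ IsLocalRing.maximalIdeal T • (⊤ : Submodule T (Module.End T V)) := by
  classical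
  let b := Module.Free.chooseBasis T V
  have hcoef : ∀ i j, b.repr (Z (b j)) i ∈ IsLocalRing.maximalIdeal T := by
    intro i j
    have h0 : (1 : IsLocalRing.ResidueField T) ⊗ₜ[T] Z (b j) = 0 := by
      have := congrArg (fun g : Module.End (IsLocalRing.ResidueField T)
        (IsLocalRing.ResidueField T ⊗[T] V) => g ((1 : IsLocalRing.ResidueField T) ⊗ₜ[T] b j)) hZ
      simpa [LinearMap.baseChange_tmul] using this
    have h1 := congrArg (fun z => (b.baseChange (IsLocalRing.ResidueField T)).repr z i) h0
    simp only [Module.Basis.baseChange_repr_tmul, map_zero, Finsupp.coe_zero,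
      Pi.zero_apply] at h1
    rw [Algebra.smul_def, mul_one, IsLocalRing.ResidueField.algebraMap_eq] at h1
    exact (IsLocalRing.residue_eq_zero_iff _).mp h1
  have hZsum : Z = ∑ j, ∑ i, b.repr (Z (b j)) i • ((b.coord j).smulRight (b i)) := by
    refine b.ext fun l => ?_
    simp only [LinearMap.sum_apply, LinearMap.smul_apply, LinearMap.smulRight_apply,
      Module.Basis.coord_apply, Module.Basis.repr_self]
    rw [Finset.sum_eq_single l]
    · simp only [Finsupp.single_eq_same, one_smul]
      exact (b.sum_repr (Z (b l))).symm
    · intro j _ hj
      simp [Finsupp.single_eq_of_ne hj]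
    · intro h; exact absurd (Finset.mem_univ l) h
  rw [hZsum]
  exact Submodule.sum_mem _ fun j _ => Submodule.sum_mem _ fun i _ =>
    Submodule.smul_mem_smul (hcoef i j) Submodule.mem_top

/-- **Nakayama**: a set of endomorphisms of a finite free module over a local ring whose
reductions span all endomorphisms of the reduction spans all endomorphisms. -/
theorem span_eq_top_of_span_residue_eq_top (S : Set (Module.End T V))
    (h : Submodule.span (IsLocalRing.ResidueField T)
      ((fun s : Module.End T V => s.baseChange (IsLocalRing.ResidueField T)) '' S) = ⊤) :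
    Submodule.span T S = ⊤ := by
  classical
  set β := LinearMap.baseChangeHom T (IsLocalRing.ResidueField T) V V with hβ
  have hsurj : Function.Surjective (algebraMap T (IsLocalRing.ResidueField T)) :=
    IsLocalRing.residue_surjective
  have hmap : (Submodule.span T S).map β = ⊤ := by
    rw [Submodule.map_span]
    have h' : (Submodule.span (IsLocalRing.ResidueField T)
        ((fun s : Module.End T V => s.baseChange (IsLocalRing.ResidueField T)) '' S)).restrictScalars
          T = ⊤ := by rw [h]; rfl
    rw [Submodule.restrictScalars_span T (IsLocalRing.ResidueField T) hsurj] at h'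
    exact h'
  rw [eq_top_iff]
  refine Submodule.le_of_le_smul_of_le_jacobson_bot (Module.Finite.fg_top)
    (IsLocalRing.maximalIdeal_le_jacobson ⊥) ?_
  intro Z _
  have hZ : β Z ∈ (Submodule.span T S).map β := by rw [hmap]; trivial
  obtain ⟨Z', hZ', hZZ'⟩ := hZ
  have hker : (Z - Z').baseChange (IsLocalRing.ResidueField T) = 0 := by
    have : β (Z - Z') = 0 := by rw [map_sub, hZZ', sub_self]
    simpa [hβ, LinearMap.baseChangeHom_apply] using this
  have := mem_smul_top_of_baseChange_eq_zero (Z - Z') hker
  have hZeq : Z = Z' + (Z - Z') := by abel
  rw [hZeq]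
  exact Submodule.add_mem_sup hZ' this

end Nakayama

/-! ### Nondegeneracy of the trace form -/

section Trace

variable {T : Type*} [CommRing T] {V : Type*} [AddCommGroup V] [Module T V]
  [Module.Free T V] [Module.Finite T V]

theorem eq_zero_of_forall_trace_comp_eq_zero (Y : Module.End T V)
    (h : ∀ Z : Module.End T V, LinearMap.trace T V (Y * Z) = 0) : Y = 0 := by
  classical
  let b := Module.Free.chooseBasis T V
  refine b.ext fun i => ?_
  rw [LinearMap.zero_apply]
  apply b.repr.injective
  ext j
  have hZ := h ((b.coord j).smulRight (b i))
  have hcomp : Y * (b.coord j).smulRight (b i) = (b.coord j).smulRight (Y (b i)) := by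
    refine LinearMap.ext fun v => ?_
    simp only [Module.End.mul_apply, LinearMap.smulRight_apply, map_smul]
  rw [hcomp, LinearMap.trace_smulRight] at hZ
  rw [map_zero, Finsupp.coe_zero, Pi.zero_apply]
  exact hZ

end Trace

/-! ### The statement for `GaloisRepAdic` -/

section Main

local notation "Γ" => (AlgebraicClosure ℚ ≃ₐ[ℚ] AlgebraicClosure ℚ)

variable {T : Type} [CommRing T] [IsLocalRing T]

/-- The image of a residually absolutely irreducible representation spans all endomorphisms. -/
theorem span_range_eq_top (ρ : GaloisRepAdic T) (hirr : ρ.residual.IsAbsolutelyIrreducible) :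
    Submodule.span T (Set.range fun g : Γ => ρ.ρ g) = ⊤ := by
  classical
  let k := IsLocalRing.ResidueField T
  let K := AlgebraicClosure k
  have hfr : Module.finrank k (k ⊗[T] ρ.V) = 2 := by
    rw [Module.finrank_baseChange, ρ.finrank_eq]
  have hfrK : Module.finrank K (K ⊗[k] (k ⊗[T] ρ.V)) = 2 := by
    rw [Module.finrank_baseChange, hfr]
  have : Nontrivial (K ⊗[k] (k ⊗[T] ρ.V)) :=
    Module.nontrivial_of_finrank_pos (R := K) (by rw [hfrK]; norm_num)
  -- Burnside over the algebraic closure
  have hK : Submodule.span K (Set.range fun g : Γ =>
      ((ρ.ρ g).baseChange k).baseChange K) = ⊤ := by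
    let ρK : Γ →* Module.End K (K ⊗[k] (k ⊗[T] ρ.V)) :=
      { toFun := fun g => ((ρ.ρ g).baseChange k).baseChange K
        map_one' := by rw [map_one, LinearMap.baseChange_one, LinearMap.baseChange_one]
        map_mul' := fun g g' => by
          rw [map_mul, LinearMap.baseChange_mul, LinearMap.baseChange_mul] }
    have h := span_eq_top_of_irreducible (MonoidHom.mrange ρK) (fun W hW =>
      hirr W (fun σ x hx => hW _ ⟨σ, rfl⟩ x hx))
    rw [MonoidHom.coe_mrange] at h
    exact h
  -- descent to the residue field
  have hk : Submodule.span k (Set.range fun g : Γ => (ρ.ρ g).baseChange k) = ⊤ := by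
    apply span_eq_top_of_span_baseChange_eq_top K
    rw [← Set.range_comp]
    exact hK
  -- Nakayama
  apply span_eq_top_of_span_residue_eq_top
  rw [← Set.range_comp]
  exact hk

/-- **T-KER.**  A residually absolutely irreducible representation over a local ring is detected
by its trace: if `trace (ρ (τ g)) = trace (ρ g)` for all `g`, then `ρ τ = 1`. -/
theorem eq_one_of_forall_trace_mul_eq (ρ : GaloisRepAdic T)
    (hirr : ρ.residual.IsAbsolutelyIrreducible) (τ : Γ)
    (h : ∀ g : Γ, LinearMap.trace T ρ.V (ρ.ρ (τ * g)) = LinearMap.trace T ρ.V (ρ.ρ g)) :
    ρ.ρ τ = 1 := by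
  rw [← sub_eq_zero]
  apply eq_zero_of_forall_trace_comp_eq_zero
  intro Z
  have hZ : Z ∈ Submodule.span T (Set.range fun g : Γ => ρ.ρ g) := by
    rw [span_range_eq_top ρ hirr]; trivial
  induction hZ using Submodule.span_induction with
  | mem Z hZ =>
    obtain ⟨g, rfl⟩ := hZ
    show LinearMap.trace T ρ.V ((ρ.ρ τ - 1) * ρ.ρ g) = 0
    rw [sub_mul, one_mul, ← map_mul, map_sub, h g, sub_self]
  | zero => rw [mul_zero, map_zero]
  | add Z Z' _ _ hZ hZ' => rw [mul_add, map_add, hZ, hZ', add_zero]
  | smul c Z _ hZ => rw [mul_smul_comm, map_smul, hZ, smul_zero]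

end Main

end Fermat.Agent.S31.H35
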